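/-
M59 / Sink B, leaf 4, cell [NU0] (helper7): abstract part.  Prefix `m59nz_`.

* `m59nz_dvd_card_mul` : on a function field over an algebraically closed field with a separating
  generator, if all orders of `f` off a finite set `S` are divisible by `m` and the orders on `S`
  are pairwise congruent mod `m`, then `m ∣ #S · ord_{v₀} f` for `v₀ ∈ S` (a principal divisor has
  degree zero);
* `m59nz_prime_dvd`   : `p ^ n ∣ s · a`, `0 < s < p ^ n` ⟹ `p ∣ a`;
* `m59nz_rep_pow`     : a representing function of `z` at the exponent `p ^ (k + 1)` represents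
  `p ^ k • z` at the exponent `p`.
-/
import Mathlib
import Fermat.Agent.JT3.Riemann.Principal
import Fermat.Agent.JT3.Riemann.LSpace
import Fermat.Agent.S44.Frame

set_option autoImplicit false
set_option linter.unusedSectionVars false
set_option linter.unusedVariables false
set_option linter.style.haveILetI false

noncomputable section

namespace Fermat.Agent.M59

open AlgebraicCurve Fermat.Agent.JT3 Fermat.Agent.S44 ModularCurve

section Deg

universe u v
variable {K : Type u} {F : Type v} [Field K] [Field F] [Algebra K F] [IsAlgClosed K] {x : F}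
  (hx : rt_IsSepGen K x)

include hx in
/-- degree zero of a principal divisor, in congruence form. -/
theorem m59nz_dvd_card_mul (f : F) (S : Finset (Place K F)) (m : ℤ)
    (hoff : ∀ v : Place K F, v ∉ S → m ∣ v.ord f)
    (hon : ∀ v ∈ S, ∀ v' ∈ S, m ∣ v.ord f - v'.ord f) (v0 : Place K F) (hv0 : v0 ∈ S) :
    m ∣ (S.card : ℤ) * v0.ord f := by
  classical
  set E : Divisor K F := rt_div hx f with hE
  have hdeg : Divisor.degree E = 0 := rt_degree_div hx f
  rw [rt_degree_eq_sum hx E (E.support ∪ S) Finset.subset_union_left] at hdeg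
  have hsplit : ∑ v ∈ E.support ∪ S, E v = ∑ v ∈ S, E v + ∑ v ∈ (E.support ∪ S) \ S, E v := by
    rw [add_comm]
    exact (Finset.sum_sdiff Finset.subset_union_right).symm
  rw [hsplit] at hdeg
  have h2 : m ∣ ∑ v ∈ (E.support ∪ S) \ S, E v := by
    refine Finset.dvd_sum fun v hv => ?_
    rw [hE, rt_div_apply]
    exact hoff v (Finset.mem_sdiff.1 hv).2
  have h1 : m ∣ ∑ v ∈ S, E v - (S.card : ℤ) * v0.ord f := by
    have : ∑ v ∈ S, E v - (S.card : ℤ) * v0.ord f = ∑ v ∈ S, (v.ord f - v0.ord f) := by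
      rw [Finset.sum_sub_distrib, Finset.sum_const, nsmul_eq_mul]
      rfl
    rw [this]
    exact Finset.dvd_sum fun v hv => hon v hv v0 hv0
  have h3 : m ∣ ∑ v ∈ S, E v := by
    have : ∑ v ∈ S, E v = -∑ v ∈ (E.support ∪ S) \ S, E v := by linarith
    rw [this]
    exact (dvd_neg).2 h2
  have := dvd_sub h3 h1
  rwa [sub_sub_cancel] at this

end Deg

/-- `p ^ n ∣ s · a` with `0 < s < p ^ n` forces `p ∣ a`. -/
theorem m59nz_prime_dvd {p : ℕ} (hp : p.Prime) (n s : ℕ) (a : ℤ) (hs0 : 0 < s) (hs : s < p ^ n)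
    (h : ((p ^ n : ℕ) : ℤ) ∣ (s : ℤ) * a) : (p : ℤ) ∣ a := by
  by_contra hpa
  have hcop : IsCoprime ((p ^ n : ℕ) : ℤ) a := by
    rw [Nat.cast_pow]
    refine IsCoprime.pow_left ?_
    exact (Prime.coprime_iff_not_dvd (Nat.prime_iff_prime_int.1 hp)).2 hpa
  have h1 : ((p ^ n : ℕ) : ℤ) ∣ (s : ℤ) := hcop.dvd_of_dvd_mul_right h
  have h2 : p ^ n ∣ s := by exact_mod_cast h1
  exact absurd (Nat.le_of_dvd hs0 h2) (not_le.2 hs)

section Rep

variable (N : ℕ) [NeZero N]

/-- a representing function of `z` at the exponent `m * k` represents `k • z` at the exponent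
`m`. -/
theorem m59nz_rep_mul {m k : ℕ} {z : JZero N} {f : modularFunctionFieldBar N}
    (h : s44f_Rep N (m * k) z f) : s44f_Rep N m (k • z) f := by
  obtain ⟨hf0, D, hD, hord⟩ := h
  refine ⟨hf0, k • D, ?_, fun v => ?_⟩
  · rw [← hD]
    rfl
  · rw [← hord v, AddSubgroup.coe_nsmul, Finsupp.smul_apply, nsmul_eq_mul]
    push_cast
    ring

end Rep

end Fermat.Agent.M59
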