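/-
M59 / Sink B, leaf 4, cell [NU0] (helper7).  Prefix `m59nz_`.

`A` over `q` odd, `q ∤ M`, `4 ∣ M`, `p` an odd prime.  For a compatible system `y ∈ T_p J₀(M q)` of
classes fixed by the inertia group of `A`:

* **`m59nz_nu_zero`** : `ν_p (y.1 1) = 0` (`twfr_nu`, the residue map to the supersingular places).

No eigenclass hypothesis: [MONO-tame] at the exponent `p ^ n` (`twfm_pairs_gen`) with the rigidity
`ord_Q ū = 12` (`m59rt_rigid`) makes `ord_Q f̄_n` constant mod `p ^ n` along the supersingular places,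
`m59res_ord_off` makes it `≡ 0` elsewhere, the degree of a principal divisor is `0`, so
`p ^ n ∣ #Sg · ord_Q f̄_n`; take `p ^ n > #Sg`; and `f̄_n` is also an `f̄` of `y.1 1 = p ^ (n-1) • y.1 n`
at the exponent `p`.
-/
import Mathlib
import Fermat.Agent.M59.SinkB.NuZero.Abs
import Fermat.Agent.M59.SinkB.RigidT.Main
import Fermat.Agent.M59.SinkB.RigidT.Adapter
import Fermat.Agent.M59.SinkB.Mass.Count
import Fermat.Agent.M59.DTwin.Res.Main
import Fermat.Agent.TW.Easy.Mono.MainGen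
import Fermat.Agent.JT3.Tate.JZero
import Fermat.Agent.S35.PMaps
import Fermat.Agent.S44.WJ.Basic

set_option autoImplicit false
set_option linter.unusedSectionVars false
set_option linter.unusedVariables false
set_option linter.style.haveILetI false
set_option synthInstance.maxHeartbeats 400000
set_option maxHeartbeats 1600000

noncomputable section

namespace Fermat.Agent.M59

open Fermat.Agent.TW

open Polynomial ModularCurve AlgebraicCurve IntermediateField IsLocalRing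
open Fermat.Agent.JT3 Fermat.Agent.SS Fermat.Agent.S35 Fermat.Agent.S24 Fermat.Agent.S44

local notation "Qb" => AlgebraicClosure ℚ

section Main

variable (A : ValuationSubring Qb) {q : ℕ} [hq : Fact q.Prime] (hA : A.LiesOverPrime q)
  (M : ℕ) [NeZero M] [NeZero q] [NeZero (M * q)] (hqM : ¬ q ∣ M) (hq2 : ¬ 2 ∣ q) (h4 : 4 ∣ M)

attribute [local instance] s44kq_lsAction

include hA hq2 h4 in
/-- the orders of `f̄_V` at two supersingular places are congruent mod `m` (`4 ∣ M`). -/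
theorem m59nz_ord_congr {m : ℕ} (hm0 : m ≠ 0) {V : JZero (M * q)} (hV : m • V = 0)
    (hfix : ∀ σ ∈ A.inertiaSubgroupIn ℚ, σ • V = V)
    (Q Q' : Place (s44e_kA A) (s44e_FF A M))
    (hQ : s44e_IsSS A M q hq.out hqM Q) (hQ' : s44e_IsSS A M q hq.out hqM Q') :
    (m : ℤ) ∣ Q.ord (twfr_fbar A M q m V) - Q'.ord (twfr_fbar A M q m V) := by
  obtain ⟨fb, T, T', hFb, hu, hu', hc⟩ := twfm_pairs_gen A hA M hqM hq2 hm0 hV hfix Q Q' hQ hQ'
  rw [m59rt_rigid A hA M hqM hq2 h4 Q hQ] at hu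
  rw [m59rt_rigid A hA M hqM hq2 h4 Q' hQ'] at hu'
  have hT : T = 1 := by omega
  have hT' : T' = 1 := by omega
  rw [hT, hT', one_mul, one_mul] at hc
  have e := twfr_nuAll_eq A hq.out hA M (Nat.pos_of_ne_zero hm0) (s44rd_hmem A hA M hqM) hFb Q
  have e' := twfr_nuAll_eq A hq.out hA M (Nat.pos_of_ne_zero hm0) (s44rd_hmem A hA M hqM) hFb Q'
  have h1 : ((Q.ord (twfr_fbar A M q m V) : ℤ) : ZMod m) =
      ((Q'.ord (twfr_fbar A M q m V) : ℤ) : ZMod m) := by
    have e1 : twfr_nuAll A M q m V Q = ((Q.ord (twfr_fbar A M q m V) : ℤ) : ZMod m) := rfl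
    have e1' : twfr_nuAll A M q m V Q' = ((Q'.ord (twfr_fbar A M q m V) : ℤ) : ZMod m) := rfl
    rw [← e1, ← e1', e, e']
    exact (ZMod.intCast_eq_intCast_iff _ _ m).2 hc
  exact (Int.modEq_iff_dvd.1 ((ZMod.intCast_eq_intCast_iff _ _ m).1 h1.symm))

include hA hq2 h4 in
/-- **[NU0]**: the residue map `ν_p` vanishes on the first layer of every compatible system of
classes of `p`-power order fixed by the inertia group of `A` (`4 ∣ M`, `p` odd). -/
theorem m59nz_nu_zero {p : ℕ} [hp : Fact p.Prime] (hp2 : p ≠ 2) (y : tj_T (M * q) p)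
    (hfix : ∀ n, ∀ σ ∈ A.inertiaSubgroupIn ℚ, σ • y.1 n = y.1 n) :
    twfr_nu A M q hq.out hqM p (y.1 1) = 0 := by
  classical
  haveI := jcr_charP A hA
  haveI := jcr_isAlgClosed A
  have hsep := m59ms_sepGen A hA M hqM
  have hq2n : q ≠ 2 := fun h => hq2 (h ▸ dvd_rfl)
  have hM2 : 2 ∣ M := dvd_trans (by norm_num) h4
  -- the supersingular places
  haveI := m59ms_finite_Sg A hA M hqM hq2
  haveI : Fintype (s44e_Sg A M q hq.out hqM) := Fintype.ofFinite _
  haveI : Nonempty (s44e_Sg A M q hq.out hqM) := m59rt_nonempty_Sg A hA M hqM hq2 h4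
  set S : Finset (Place (s44e_kA A) (s44e_FF A M)) :=
    Finset.univ.map ⟨fun i : s44e_Sg A M q hq.out hqM => i.1, Subtype.val_injective⟩ with hS
  have hSmem : ∀ v : Place (s44e_kA A) (s44e_FF A M), v ∈ S ↔ s44e_IsSS A M q hq.out hqM v := by
    intro v
    rw [hS, Finset.mem_map]
    constructor
    · rintro ⟨i, -, rfl⟩
      exact i.2
    · intro hv
      exact ⟨⟨v, hv⟩, Finset.mem_univ _, rfl⟩
  have hcard0 : 0 < S.card := by
    rw [hS, Finset.card_map, Finset.card_univ]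
    exact Fintype.card_pos
  -- the exponent
  obtain ⟨k, hk⟩ : ∃ k : ℕ, S.card = k + 1 := ⟨S.card - 1, by omega⟩
  have hp1 : 1 < p := hp.out.one_lt
  have hlt : S.card < p ^ (1 + k) := by
    rw [hk, add_comm 1 k]
    exact Nat.lt_pow_self hp1
  have hm0 : p ^ (1 + k) ≠ 0 := pow_ne_zero _ hp.out.ne_zero
  have hm2 : Nat.Coprime (p ^ (1 + k)) 2 := by
    refine Nat.Coprime.pow_left _ ?_
    exact (Nat.coprime_primes hp.out Nat.prime_two).2 hp2
  have hV : p ^ (1 + k) • y.1 (1 + k) = 0 := tm_tor y (1 + k)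
  have hFb := twfr_fbar_spec' A hA M hqM hm0 hV
  -- the congruences
  have hon : ∀ v ∈ S, ∀ v' ∈ S, ((p ^ (1 + k) : ℕ) : ℤ) ∣
      v.ord (twfr_fbar A M q (p ^ (1 + k)) (y.1 (1 + k))) -
        v'.ord (twfr_fbar A M q (p ^ (1 + k)) (y.1 (1 + k))) := fun v hv v' hv' =>
    m59nz_ord_congr A hA M hqM hq2 h4 hm0 hV (hfix (1 + k)) v v' ((hSmem v).1 hv)
      ((hSmem v').1 hv')
  have hoff : ∀ v : Place (s44e_kA A) (s44e_FF A M), v ∉ S → ((p ^ (1 + k) : ℕ) : ℤ) ∣
      v.ord (twfr_fbar A M q (p ^ (1 + k)) (y.1 (1 + k))) := fun v hv =>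
    m59res_ord_off A hA M hqM hq2n hm0 hM2 hm2 hV v (fun h => hv ((hSmem v).2 h))
  -- `f̄` is also an `f̄` of the first layer at the exponent `p`
  have hFb1 : twfr_Fbar A M q p (y.1 1) (twfr_fbar A M q (p ^ (1 + k)) (y.1 (1 + k))) := by
    obtain ⟨h0, f, hrep, hred⟩ := hFb
    refine ⟨h0, f, ?_, hred⟩
    have h1 : s44f_Rep (M * q) (p * p ^ k) (y.1 (1 + k)) f := by
      rw [← pow_succ', add_comm k 1]
      exact hrep
    have h2 := m59nz_rep_mul (M * q) h1
    rwa [tm_pow_smul y 1 k] at h2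
  funext i
  show twfr_nuAll A M q p (y.1 1) i.1 = 0
  rw [twfr_nuAll_eq A hq.out hA M hp.out.pos (s44rd_hmem A hA M hqM) hFb1 i.1]
  have hi : i.1 ∈ S := (hSmem i.1).2 i.2
  have hdvd := m59nz_dvd_card_mul hsep (twfr_fbar A M q (p ^ (1 + k)) (y.1 (1 + k))) S
    ((p ^ (1 + k) : ℕ) : ℤ) hoff hon i.1 hi
  have hp_dvd := m59nz_prime_dvd hp.out (1 + k) S.card _ hcard0 hlt hdvd
  exact (ZMod.intCast_zmod_eq_zero_iff_dvd _ _).2 hp_dvd

include hA hq2 h4 in
/-- **[NU0] for `W_q`**: the same for the Atkin–Lehner transform of the first layer. -/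
theorem m59nz_nu_zero_W {p : ℕ} [hp : Fact p.Prime] (hp2 : p ≠ 2) (y : tj_T (M * q) p)
    (hfix : ∀ n, ∀ σ ∈ A.inertiaSubgroupIn ℚ, σ • y.1 n = y.1 n) :
    twfr_nu A M q hq.out hqM p (s44w_WJ M q hq.out hqM (y.1 1)) = 0 := by
  have h := m59nz_nu_zero A hA M hqM hq2 h4 hp2 (s35p_tmMap p (s44w_WJ M q hq.out hqM) y)
    (fun n σ hσ => by
      rw [s35p_tmMap_apply, ← s44w_WJ_smul, hfix n σ hσ])
  rwa [s35p_tmMap_apply] at h

end Main

end Fermat.Agent.M59
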