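/-
M59 / Sink B, leaf 4, cell [NU0], full form (helper7).  Prefix `m59nz_`.

For a compatible system `y ∈ T_p J₀(M q)` of classes fixed by the inertia group of `A`
(`A` over `q` odd, `q ∤ M`, `4 ∣ M`, `p` odd):

* `m59nz_pow_dvd`      : `p ^ (n + k) ∣ s · a`, `0 < s < p ^ k` ⟹ `p ^ n ∣ a`;
* `m59nz_fbar_shift`   : an `f̄` of `y.1 (n + k)` at the exponent `p ^ (n + k)` is an `f̄` of `y.1 n` at
                         the exponent `p ^ n`;
* **`m59nz_nuAll_zero`** : `ν_{p^n} (y.1 n) = 0` at EVERY place of `FF_A(M)`, for every `n`;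
* `m59nz_nuAll_zero_W` : the same for the Atkin–Lehner transforms;
* `m59nz_nu_zero_all`, `m59nz_dvd_all` : the forms `twfr_nu … = 0` and `p ^ n ∣ ord_Q f̄`.
-/
import Mathlib
import Fermat.Agent.M59.SinkB.NuZero.Main

set_option autoImplicit false
set_option linter.unusedSectionVars false
set_option linter.unusedVariables false
set_option linter.style.haveILetI false
set_option synthInstance.maxHeartbeats 400000
set_option maxHeartbeats 1600000

noncomputable section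

namespace Fermat.Agent.M59

open Fermat.Agent.TW

open Polynomial ModularCurve AlgebraicCurve IntermediateField IsLocalRing
open Fermat.Agent.JT3 Fermat.Agent.SS Fermat.Agent.S35 Fermat.Agent.S24 Fermat.Agent.S44

local notation "Qb" => AlgebraicClosure ℚ

/-- `p ^ (n + k) ∣ s · a` with `0 < s < p ^ k` forces `p ^ n ∣ a`. -/
theorem m59nz_pow_dvd {p : ℕ} (hp : p.Prime) (k s : ℕ) (hs0 : 0 < s) (hs : s < p ^ k) :
    ∀ (n : ℕ) (a : ℤ), ((p ^ (n + k) : ℕ) : ℤ) ∣ (s : ℤ) * a → ((p ^ n : ℕ) : ℤ) ∣ a := by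
  intro n
  induction n with
  | zero => intro a _; simp
  | succ n ih =>
    intro a h
    have hlt : s < p ^ (n + 1 + k) :=
      lt_of_lt_of_le hs (Nat.pow_le_pow_right hp.pos (by omega))
    obtain ⟨a', rfl⟩ := m59nz_prime_dvd hp (n + 1 + k) s a hs0 hlt h
    have h2 : ((p ^ (n + k) : ℕ) : ℤ) ∣ (s : ℤ) * a' := by
      have e : ((p ^ (n + 1 + k) : ℕ) : ℤ) = (p : ℤ) * ((p ^ (n + k) : ℕ) : ℤ) := by
        push_cast
        ring
      rw [e] at h
      have h3 : (p : ℤ) * ((p ^ (n + k) : ℕ) : ℤ) ∣ (p : ℤ) * ((s : ℤ) * a') := by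
        have : (s : ℤ) * ((p : ℤ) * a') = (p : ℤ) * ((s : ℤ) * a') := by ring
        rwa [this] at h
      exact (mul_dvd_mul_iff_left (by exact_mod_cast hp.ne_zero)).1 h3
    have h4 := ih a' h2
    have e2 : ((p ^ (n + 1) : ℕ) : ℤ) = (p : ℤ) * ((p ^ n : ℕ) : ℤ) := by
      push_cast
      ring
    rw [e2]
    exact mul_dvd_mul_left _ h4

section Main

variable (A : ValuationSubring Qb) {q : ℕ} [hq : Fact q.Prime] (hA : A.LiesOverPrime q)
  (M : ℕ) [NeZero M] [NeZero q] [NeZero (M * q)] (hqM : ¬ q ∣ M) (hq2 : ¬ 2 ∣ q) (h4 : 4 ∣ M)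
  {p : ℕ} [hp : Fact p.Prime]

attribute [local instance] s44kq_lsAction

/-- an `f̄` of a deeper layer is an `f̄` of `y.1 n` at the exponent `p ^ n`. -/
theorem m59nz_fbar_shift (y : tj_T (M * q) p) (n k : ℕ) {fb : s44e_FF A M}
    (h : twfr_Fbar A M q (p ^ (n + k)) (y.1 (n + k)) fb) :
    twfr_Fbar A M q (p ^ n) (y.1 n) fb := by
  obtain ⟨h0, f, hrep, hred⟩ := h
  refine ⟨h0, f, ?_, hred⟩
  have h1 : s44f_Rep (M * q) (p ^ n * p ^ k) (y.1 (n + k)) f := by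
    rw [← pow_add]
    exact hrep
  have h2 := m59nz_rep_mul (M * q) h1
  rwa [tm_pow_smul y n k] at h2

include hA hqM hq2 h4 in
/-- **[NU0], full form**: `ν_{p^n} (y.1 n) = 0` at every place, for every `n`. -/
theorem m59nz_nuAll_zero (hp2 : p ≠ 2) (y : tj_T (M * q) p)
    (hfix : ∀ n, ∀ σ ∈ A.inertiaSubgroupIn ℚ, σ • y.1 n = y.1 n) (n : ℕ)
    (Q : Place (s44e_kA A) (s44e_FF A M)) :
    twfr_nuAll A M q (p ^ n) (y.1 n) Q = 0 := by
  classical
  haveI := jcr_charP A hA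
  haveI := jcr_isAlgClosed A
  have hsep := m59ms_sepGen A hA M hqM
  have hq2n : q ≠ 2 := fun h => hq2 (h ▸ dvd_rfl)
  have hM2 : 2 ∣ M := dvd_trans (by norm_num) h4
  haveI := m59ms_finite_Sg A hA M hqM hq2
  haveI : Fintype (s44e_Sg A M q hq.out hqM) := Fintype.ofFinite _
  haveI : Nonempty (s44e_Sg A M q hq.out hqM) := m59rt_nonempty_Sg A hA M hqM hq2 h4
  set S : Finset (Place (s44e_kA A) (s44e_FF A M)) :=
    Finset.univ.map ⟨fun i : s44e_Sg A M q hq.out hqM => i.1, Subtype.val_injective⟩ with hS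
  have hSmem : ∀ v : Place (s44e_kA A) (s44e_FF A M), v ∈ S ↔ s44e_IsSS A M q hq.out hqM v := by
    intro v
    rw [hS, Finset.mem_map]
    constructor
    · rintro ⟨i, -, rfl⟩
      exact i.2
    · intro hv
      exact ⟨⟨v, hv⟩, Finset.mem_univ _, rfl⟩
  have hcard0 : 0 < S.card := by
    rw [hS, Finset.card_map, Finset.card_univ]
    exact Fintype.card_pos
  have hp1 : 1 < p := hp.out.one_lt
  have hlt : S.card < p ^ S.card := Nat.lt_pow_self hp1
  -- the deep exponent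
  set k := S.card with hk
  have hm0 : p ^ (n + k) ≠ 0 := pow_ne_zero _ hp.out.ne_zero
  have hm2 : Nat.Coprime (p ^ (n + k)) 2 := by
    refine Nat.Coprime.pow_left _ ?_
    exact (Nat.coprime_primes hp.out Nat.prime_two).2 hp2
  have hV : p ^ (n + k) • y.1 (n + k) = 0 := tm_tor y (n + k)
  have hFb := twfr_fbar_spec' A hA M hqM hm0 hV
  have hFbn := m59nz_fbar_shift A M y n k hFb
  have hpn : 0 < p ^ n := pow_pos hp.out.pos n
  rw [twfr_nuAll_eq A hq.out hA M hpn (s44rd_hmem A hA M hqM) hFbn Q]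
  refine (ZMod.intCast_zmod_eq_zero_iff_dvd _ _).2 ?_
  have hoff : ∀ v : Place (s44e_kA A) (s44e_FF A M), v ∉ S → ((p ^ (n + k) : ℕ) : ℤ) ∣
      v.ord (twfr_fbar A M q (p ^ (n + k)) (y.1 (n + k))) := fun v hv =>
    m59res_ord_off A hA M hqM hq2n hm0 hM2 hm2 hV v (fun h => hv ((hSmem v).2 h))
  by_cases hQ : Q ∈ S
  · have hon : ∀ v ∈ S, ∀ v' ∈ S, ((p ^ (n + k) : ℕ) : ℤ) ∣
        v.ord (twfr_fbar A M q (p ^ (n + k)) (y.1 (n + k))) -
          v'.ord (twfr_fbar A M q (p ^ (n + k)) (y.1 (n + k))) := fun v hv v' hv' =>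
      m59nz_ord_congr A hA M hqM hq2 h4 hm0 hV (hfix (n + k)) v v' ((hSmem v).1 hv)
        ((hSmem v').1 hv')
    have hdvd := m59nz_dvd_card_mul hsep (twfr_fbar A M q (p ^ (n + k)) (y.1 (n + k))) S
      ((p ^ (n + k) : ℕ) : ℤ) hoff hon Q hQ
    exact m59nz_pow_dvd hp.out k S.card hcard0 hlt n _ hdvd
  · refine dvd_trans ?_ (hoff Q hQ)
    rw [Int.natCast_dvd_natCast]
    exact pow_dvd_pow p (Nat.le_add_right n k)

include hA hqM hq2 h4 in
/-- **[NU0], full form, for `W_q`.** -/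
theorem m59nz_nuAll_zero_W (hp2 : p ≠ 2) (y : tj_T (M * q) p)
    (hfix : ∀ n, ∀ σ ∈ A.inertiaSubgroupIn ℚ, σ • y.1 n = y.1 n) (n : ℕ)
    (Q : Place (s44e_kA A) (s44e_FF A M)) :
    twfr_nuAll A M q (p ^ n) (s44w_WJ M q hq.out hqM (y.1 n)) Q = 0 := by
  have h := m59nz_nuAll_zero A hA M hqM hq2 h4 hp2 (s35p_tmMap p (s44w_WJ M q hq.out hqM) y)
    (fun n σ hσ => by
      rw [s35p_tmMap_apply, ← s44w_WJ_smul, hfix n σ hσ]) n Q
  rwa [s35p_tmMap_apply] at h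

include hA hqM hq2 h4 in
/-- `ν_{p^n} (y.1 n) = 0` on the supersingular places. -/
theorem m59nz_nu_zero_all (hp2 : p ≠ 2) (y : tj_T (M * q) p)
    (hfix : ∀ n, ∀ σ ∈ A.inertiaSubgroupIn ℚ, σ • y.1 n = y.1 n) (n : ℕ) :
    twfr_nu A M q hq.out hqM (p ^ n) (y.1 n) = 0 := by
  funext i
  exact m59nz_nuAll_zero A hA M hqM hq2 h4 hp2 y hfix n i.1

include hA hqM hq2 h4 in
/-- `p ^ n` divides all the orders of `f̄_{y.1 n}`. -/
theorem m59nz_dvd_all (hp2 : p ≠ 2) (y : tj_T (M * q) p)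
    (hfix : ∀ n, ∀ σ ∈ A.inertiaSubgroupIn ℚ, σ • y.1 n = y.1 n) (n : ℕ)
    (Q : Place (s44e_kA A) (s44e_FF A M)) :
    ((p ^ n : ℕ) : ℤ) ∣ Q.ord (twfr_fbar A M q (p ^ n) (y.1 n)) := by
  have h := m59nz_nuAll_zero A hA M hqM hq2 h4 hp2 y hfix n Q
  exact (ZMod.intCast_zmod_eq_zero_iff_dvd _ _).1 h

end Main

end Fermat.Agent.M59
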